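/-
P-CFT / [HASSE] row 953 (HS-F, sub-lead helper97), part 1: the transfer argument for
multiplicative 2-cochains (wrapper around helper75's additive `exists_cobound_card_smul`).

`isMulCoboundary₂_pow_index`: if a multiplicative 2-cocycle `c` of `G` restricted to a subgroup
`H` of finite index is a coboundary, then `c ^ [G : H]` is a coboundary on `G`.
`isMulCoboundary₂_of_coprime`: if moreover `c ^ m` is a coboundary with `m` prime to `[G : H]`,
then `c` is a coboundary.
-/
import Fermat.Agent.H75.Coh2Transfer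

set_option autoImplicit false

namespace Fermat.Agent.H96.Hasse

open groupCohomology

variable {G M : Type*} [Group G] [CommGroup M] [MulDistribMulAction G M]

/-- Powers of multiplicative 2-cocycles are 2-cocycles. -/
theorem isMulCocycle₂_pow_nat {f : G × G → M} (hf : IsMulCocycle₂ f) (k : ℕ) :
    IsMulCocycle₂ (fun x => f x ^ k) := by
  intro g h j
  show f (g * h, j) ^ k * f (g, h) ^ k = g • (f (h, j) ^ k) * f (g, h * j) ^ k
  rw [← mul_pow, hf g h j, mul_pow, smul_pow']

/-- **Transfer**, multiplicative form. -/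
theorem isMulCoboundary₂_pow_index (H : Subgroup G) [H.FiniteIndex] {c : G × G → M}
    (hc : IsMulCocycle₂ c) (b : G → M)
    (hb : ∀ h ∈ H, ∀ j ∈ H, h • b j / b (h * j) * b h = c (h, j)) :
    IsMulCoboundary₂ (fun x => c x ^ H.index) := by
  classical
  let _ := H.fintypeQuotientOfFiniteIndex
  obtain ⟨a, ha⟩ := Fermat.Agent.H75.Coh2.exists_cobound_card_smul
    (Representation.ofMulDistribMulAction G M) H (fun x => Additive.ofMul (c x))
    (fun g h j => congrArg Additive.ofMul (hc g h j)) (fun g => Additive.ofMul (b g))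
    (fun h hh j hj => (congrArg Additive.ofMul (hb h hh j hj)).symm)
  refine ⟨fun g => Additive.toMul (a g), fun g h => ?_⟩
  have := congrArg Additive.toMul (ha g h)
  rw [← Nat.card_eq_fintype_card, ← Subgroup.index_eq_card] at this
  exact this

/-- A cochain with coboundary powers `c ^ m`, `c ^ k`, `m` and `k` coprime, is a coboundary. -/
theorem isMulCoboundary₂_of_pow_coprime {c : G × G → M} {m k : ℕ} (hmk : Nat.Coprime m k)
    (hm : IsMulCoboundary₂ (fun x => c x ^ m)) (hk : IsMulCoboundary₂ (fun x => c x ^ k)) :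
    IsMulCoboundary₂ c := by
  obtain ⟨x, hx⟩ := hm
  obtain ⟨y, hy⟩ := hk
  refine ⟨fun g => x g ^ (Nat.gcdA m k) * y g ^ (Nat.gcdB m k), fun g h => ?_⟩
  have e : c (g, h) = (c (g, h) ^ m) ^ (Nat.gcdA m k) * (c (g, h) ^ k) ^ (Nat.gcdB m k) := by
    rw [← zpow_natCast, ← zpow_natCast, ← zpow_mul, ← zpow_mul, ← zpow_add,
      ← Nat.gcd_eq_gcd_ab, hmk.gcd_eq_one, Nat.cast_one, zpow_one]
  have hx' : g • x h / x (g * h) * x g = c (g, h) ^ m := hx g h
  have hy' : g • y h / y (g * h) * y g = c (g, h) ^ k := hy g h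
  show g • (x h ^ (Nat.gcdA m k) * y h ^ (Nat.gcdB m k)) /
      (x (g * h) ^ (Nat.gcdA m k) * y (g * h) ^ (Nat.gcdB m k)) *
      (x g ^ (Nat.gcdA m k) * y g ^ (Nat.gcdB m k)) = c (g, h)
  rw [e, ← hx', ← hy']
  simp only [smul_mul', smul_zpow', mul_zpow, div_eq_mul_inv, mul_inv, inv_zpow]
  ac_rfl

/-- **Restriction is injective on classes killed by `m` prime to the index.** -/
theorem isMulCoboundary₂_of_coprime (H : Subgroup G) [H.FiniteIndex] {c : G × G → M}
    (hc : IsMulCocycle₂ c) (b : G → M)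
    (hb : ∀ h ∈ H, ∀ j ∈ H, h • b j / b (h * j) * b h = c (h, j)) {m : ℕ}
    (hm : Nat.Coprime m H.index) (hcm : IsMulCoboundary₂ (fun x => c x ^ m)) :
    IsMulCoboundary₂ c :=
  isMulCoboundary₂_of_pow_coprime hm hcm (isMulCoboundary₂_pow_index H hc b hb)

end Fermat.Agent.H96.Hasse
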