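/-
P-CFT / [HASSE] row 953 (HS-F, sub-lead helper97), part 2: the field dictionary.

`K ≤ ℚ̄` an intermediate field of `ℚ̄ / ℚ`, `F / K` finite Galois inside `ℚ̄`, `P ≤ Gal(F/K)`.
`fixK K F P` is the fixed field of `P` viewed as an intermediate field of `ℚ̄ / ℚ`,
`topF K F P` is `F` viewed as an intermediate field of `ℚ̄ / fixK K F P`.
-/
import Fermat.Agent.H97.Hasse.Defs
import Fermat.Agent.H75.Inf2Galois

set_option autoImplicit false
set_option linter.style.haveILetI false
set_option synthInstance.maxHeartbeats 400000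

noncomputable section

namespace Fermat.Agent.H96.Hasse

open Fermat.Agent.H13.Cft Fermat.Agent.H78.CFT Fermat.Agent.H97.Hasse Fermat.Agent.H75.Inf2
  groupCohomology

attribute [local instance] Fermat.Agent.H75.Inf2.isGalois_rat_Qb

variable (K : IntermediateField ℚ Qb) (F : IntermediateField K Qb) (P : Subgroup (F ≃ₐ[K] F))

/-- The fixed field of `P ≤ Gal(F/K)` as an intermediate field of `ℚ̄ / ℚ`. -/
def fixK : IntermediateField ℚ Qb :=
  ((IntermediateField.fixedField P).map F.val).restrictScalars ℚ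

variable {K F P}

theorem mem_fixK {y : Qb} :
    y ∈ fixK K F P ↔ ∃ x : F, (∀ σ ∈ P, σ x = x) ∧ (x : Qb) = y := by
  show y ∈ (IntermediateField.fixedField P).map F.val ↔ _
  rw [IntermediateField.mem_map]
  constructor
  · rintro ⟨x, hx, rfl⟩
    exact ⟨x, fun σ hσ => (IntermediateField.mem_fixedField_iff P x).1 hx σ hσ, rfl⟩
  · rintro ⟨x, hx, rfl⟩
    exact ⟨x, (IntermediateField.mem_fixedField_iff P x).2 hx, rfl⟩

variable (K F P)

theorem le_fixK : K ≤ fixK K F P := by
  intro y hy
  rw [mem_fixK]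
  refine ⟨algebraMap K F ⟨y, hy⟩, fun σ _ => σ.commutes _, rfl⟩

theorem fixK_le : fixK K F P ≤ F.restrictScalars ℚ := by
  intro y hy
  obtain ⟨x, _, rfl⟩ := mem_fixK.1 hy
  exact x.2

/-- `F` as an intermediate field of `ℚ̄ / F ^ P`. -/
def topF : IntermediateField (fixK K F P) Qb :=
  IntermediateField.extendScalars (fixK_le K F P)

variable {K F P}

theorem mem_topF {y : Qb} : y ∈ topF K F P ↔ y ∈ F := Iff.rfl

variable (K F P)

section galois

variable [FiniteDimensional K F] [IsGalois K F]

/-- `G_{F^P}` is the preimage of `P` in `G_K`. -/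
theorem mem_fixingSubgroup_fixK (g : K.fixingSubgroup) :
    (g : Qb ≃ₐ[ℚ] Qb) ∈ (fixK K F P).fixingSubgroup ↔ resEF K F g ∈ P := by
  constructor
  · intro hg
    rw [← IntermediateField.fixingSubgroup_fixedField P, IntermediateField.mem_fixingSubgroup_iff]
    intro x hx
    apply Subtype.ext
    rw [resEF_apply]
    refine (IntermediateField.mem_fixingSubgroup_iff _ _).1 hg _ ?_
    exact mem_fixK.2 ⟨x, fun σ hσ => (IntermediateField.mem_fixedField_iff P x).1 hx σ hσ, rfl⟩
  · intro hg
    rw [IntermediateField.mem_fixingSubgroup_iff]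
    intro y hy
    obtain ⟨x, hx, rfl⟩ := mem_fixK.1 hy
    rw [← resEF_apply, hx _ hg]

end galois

/-- A `fixK`-automorphism of `ℚ̄` as an element of `G_K`. -/
def toGK (σ : Qb ≃ₐ[fixK K F P] Qb) : K.fixingSubgroup :=
  ⟨σ.restrictScalars ℚ, by
    rw [IntermediateField.mem_fixingSubgroup_iff]
    intro k hk
    exact σ.commutes ⟨k, le_fixK K F P hk⟩⟩

theorem toGK_apply (σ : Qb ≃ₐ[fixK K F P] Qb) (y : Qb) :
    ((toGK K F P σ : K.fixingSubgroup) : Qb ≃ₐ[ℚ] Qb) y = σ y := rfl

instance normal_topF [Normal K F] : Normal (fixK K F P) (topF K F P) := by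
  rw [IntermediateField.normal_iff_forall_map_le']
  intro σ y hy
  rw [IntermediateField.mem_map] at hy
  obtain ⟨x, hx, rfl⟩ := hy
  have h1 := resEF_apply K F (toGK K F P σ) ⟨x, hx⟩
  rw [toGK_apply] at h1
  rw [mem_topF]
  show σ x ∈ F
  rw [← h1]
  exact (resEF K F (toGK K F P σ) ⟨x, hx⟩).2

theorem finiteDimensional_restrictScalars (hK : FiniteDimensional ℚ K) [FiniteDimensional K F] :
    FiniteDimensional ℚ (F.restrictScalars ℚ) := by
  haveI := hK
  haveI : Module.Finite ℚ F := Module.Finite.trans K F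
  let f : F →ₗ[ℚ] (F.restrictScalars ℚ) :=
    { toFun := fun x => ⟨x.1, x.2⟩
      map_add' := fun _ _ => rfl
      map_smul' := fun _ _ => rfl }
  exact Module.Finite.of_surjective f (fun x => ⟨⟨x.1, x.2⟩, rfl⟩)

theorem finiteDimensional_fixK (hK : FiniteDimensional ℚ K) [FiniteDimensional K F] :
    FiniteDimensional ℚ (fixK K F P) := by
  haveI := finiteDimensional_restrictScalars K F hK
  exact FiniteDimensional.of_injective (IntermediateField.inclusion (fixK_le K F P)).toLinearMap
    (IntermediateField.inclusion (fixK_le K F P)).injective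

theorem finiteDimensional_topF (hK : FiniteDimensional ℚ K) [FiniteDimensional K F] :
    FiniteDimensional (fixK K F P) (topF K F P) := by
  haveI := finiteDimensional_restrictScalars K F hK
  let f : (F.restrictScalars ℚ) →ₗ[ℚ] (topF K F P) :=
    { toFun := fun x => ⟨x.1, x.2⟩
      map_add' := fun _ _ => rfl
      map_smul' := fun _ _ => rfl }
  haveI : Module.Finite ℚ (topF K F P) :=
    Module.Finite.of_surjective f (fun x => ⟨⟨x.1, x.2⟩, rfl⟩)
  exact Module.Finite.of_restrictScalars_finite ℚ (fixK K F P) (topF K F P)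

theorem isGalois_topF [Normal K F] : IsGalois (fixK K F P) (topF K F P) :=
  { to_isSeparable := inferInstance
    to_normal := normal_topF K F P }

/-! ### The comparison of Galois groups -/

section compare

variable [Normal K F]

/-- The comparison map `Gal(F / F^P) → Gal(F / K)`. -/
def compHom : ((topF K F P) ≃ₐ[fixK K F P] (topF K F P)) →* (F ≃ₐ[K] F) :=
  (resEF (fixK K F P) (topF K F P)).liftOfRightInverse
    (Function.surjInv (resEF_surjective (fixK K F P) (topF K F P)))
    (Function.surjInv_eq (resEF_surjective (fixK K F P) (topF K F P)))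
    ⟨(resEF K F).comp (incl (le_fixK K F P)), fun g hg => by
      rw [MonoidHom.mem_ker, resEF_eq_one_iff] at hg
      rw [MonoidHom.mem_ker, MonoidHom.comp_apply, resEF_eq_one_iff]
      intro x
      exact hg ⟨x.1, x.2⟩⟩

theorem compHom_resEF (g : (fixK K F P).fixingSubgroup) :
    compHom K F P (resEF (fixK K F P) (topF K F P) g) = resEF K F (incl (le_fixK K F P) g) :=
  MonoidHom.liftOfRightInverse_comp_apply _ _ _ _ _

theorem compHom_apply (σ : (topF K F P) ≃ₐ[fixK K F P] (topF K F P)) (x : F) :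
    ((compHom K F P σ x : F) : Qb) = ((σ ⟨x.1, x.2⟩ : topF K F P) : Qb) := by
  obtain ⟨g, rfl⟩ := resEF_surjective (fixK K F P) (topF K F P) σ
  rw [compHom_resEF, resEF_apply, resEF_apply]
  rfl

theorem compHom_injective : Function.Injective (compHom K F P) := by
  rw [injective_iff_map_eq_one]
  intro σ hσ
  ext x
  have := compHom_apply K F P σ ⟨x.1, x.2⟩
  rw [hσ] at this
  exact this.symm

end compare

section range

variable [FiniteDimensional K F] [IsGalois K F]

theorem compHom_mem (σ : (topF K F P) ≃ₐ[fixK K F P] (topF K F P)) : compHom K F P σ ∈ P := by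
  obtain ⟨g, rfl⟩ := resEF_surjective (fixK K F P) (topF K F P) σ
  rw [compHom_resEF]
  exact (mem_fixingSubgroup_fixK K F P _).1 g.2

theorem exists_compHom_eq {τ : F ≃ₐ[K] F} (hτ : τ ∈ P) :
    ∃ σ : (topF K F P) ≃ₐ[fixK K F P] (topF K F P), compHom K F P σ = τ := by
  obtain ⟨g, rfl⟩ := resEF_surjective K F τ
  have hg := (mem_fixingSubgroup_fixK K F P g).2 hτ
  refine ⟨resEF (fixK K F P) (topF K F P) ⟨g, hg⟩, ?_⟩
  rw [compHom_resEF]
  rfl

theorem range_compHom : (compHom K F P).range = P := by
  ext τ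
  constructor
  · rintro ⟨σ, rfl⟩
    exact compHom_mem K F P σ
  · intro hτ
    exact exists_compHom_eq K F P hτ

/-- `Gal(F / F^P) ≃ P`. -/
def compEquiv : ((topF K F P) ≃ₐ[fixK K F P] (topF K F P)) ≃* P :=
  (MonoidHom.ofInjective (compHom_injective K F P)).trans
    (MulEquiv.subgroupCongr (range_compHom K F P))

theorem card_gal_topF : Nat.card ((topF K F P) ≃ₐ[fixK K F P] (topF K F P)) = Nat.card P :=
  Nat.card_congr (compEquiv K F P).toEquiv

theorem finrank_topF (hK : FiniteDimensional ℚ K) :
    Module.finrank (fixK K F P) (topF K F P) = Nat.card P := by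
  haveI := finiteDimensional_topF K F P hK
  haveI := isGalois_topF K F P
  rw [← card_gal_topF, IsGalois.card_aut_eq_finrank]

/-- `F / F^P` is Galois of degree `|P|`. -/
theorem isGalDeg_topF (hK : FiniteDimensional ℚ K) :
    IsGalDeg (fixK_le K F P) (Nat.card P) :=
  ⟨finiteDimensional_topF K F P hK, isGalois_topF K F P, finrank_topF K F P hK⟩

end range

end Fermat.Agent.H96.Hasse

end
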