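/-
P-CFT / [HASSE] row 953 (HS-F, sub-lead helper97): **SylowReduction**.

A `p`-primary Brauer class `c` of the number field `K` is split by a Galois extension `L / K'`
of `p`-power degree, where `K' / K` is finite, `ζ_p ∈ K'`, and restriction from `K` to `K'` is
injective on this class.

Route: `c` is inflated from a finite Galois `F₀ / K` (helper75 `lvl2Finite`); enlarge `F₀` to a
finite Galois `F / K` containing `ζ_p`; `P` a Sylow `p`-subgroup of `Gal(F/K)`, `K' = F ^ P`,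
`L = F`.  `ζ_p ∈ K'` because the cyclotomic character of `P` has values in a group of order
`p - 1`; injectivity of the restriction is the transfer argument (helper75
`exists_cobound_card_smul`) at finite level, the passage between level cochains and finite level
being helper75's `inf2Lvl` (with helper57's `h90Lvl`) and `isLvlMulCoboundary_inflE`.
-/
import Fermat.Agent.H97.Hasse.Interfaces
import Fermat.Agent.H96.Hasse.MulTransfer
import Fermat.Agent.H96.Hasse.SylowDict
import Fermat.Agent.H75.Inf2Finite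
import Fermat.Agent.H75.Inf2Lvl
import Fermat.Agent.H75.Inf2Tower
import Fermat.Agent.H57.CFT.H90Lvl

set_option autoImplicit false
set_option linter.style.haveILetI false
set_option synthInstance.maxHeartbeats 400000

noncomputable section

namespace Fermat.Agent.H96.Hasse

open Fermat.Agent.H13.Cft Fermat.Agent.H78.CFT Fermat.Agent.H97.Hasse Fermat.Agent.H75.Inf2
  Fermat.Agent.H61.CFT groupCohomology

attribute [local instance] Fermat.Agent.H75.Inf2.isGalois_rat_Qb

/-- Instance shortcut (speeds up elaboration only). -/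
local instance galUnitsSMul (E : IntermediateField ℚ Qb) (M : IntermediateField E Qb) :
    SMul (M ≃ₐ[E] M) Mˣ := inferInstance

section dict

variable (K : IntermediateField ℚ Qb) (F : IntermediateField K Qb) (P : Subgroup (F ≃ₐ[K] F))

/-- `F → topF`, the identity on underlying elements. -/
def toTop : F ≃+* topF K F P where
  toFun x := ⟨x.1, x.2⟩
  invFun x := ⟨x.1, x.2⟩
  left_inv _ := rfl
  right_inv _ := rfl
  map_mul' _ _ := rfl
  map_add' _ _ := rfl

/-- `Fˣ → (topF)ˣ`. -/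
def unitsTop : Fˣ →* (topF K F P)ˣ := Units.map ((toTop K F P : F →+* topF K F P) : F →* topF K F P)

theorem coe_unitsTop (u : Fˣ) :
    (((unitsTop K F P u : (topF K F P)ˣ) : topF K F P) : Qb) = ((u : F) : Qb) := rfl

theorem unitsTop_injective : Function.Injective (unitsTop K F P) := by
  intro a b hab
  apply Units.ext
  apply Subtype.ext
  rw [← coe_unitsTop K F P a, ← coe_unitsTop K F P b, hab]

theorem unitsTop_surjective : Function.Surjective (unitsTop K F P) := by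
  intro u
  refine ⟨Units.mk0 ⟨((u : topF K F P) : Qb), (u : topF K F P).2⟩
    (fun h0 => u.ne_zero (Subtype.ext (congrArg Subtype.val h0))), ?_⟩
  apply Units.ext
  apply Subtype.ext
  rfl

variable [Normal K F]

theorem unitsTop_smul (σ : (topF K F P) ≃ₐ[fixK K F P] (topF K F P)) (a : Fˣ) :
    unitsTop K F P (compHom K F P σ • a) = σ • unitsTop K F P a := by
  apply Units.ext
  apply Subtype.ext
  show ((compHom K F P σ (a : F) : F) : Qb) =
    ((σ ((unitsTop K F P a : (topF K F P)ˣ) : topF K F P) : topF K F P) : Qb)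
  rw [compHom_apply]
  rfl

/-- The restriction to `Gal(F / F^P)` of a finite level cochain of `Gal(F / K)`. -/
def resFin (c₀ : (F ≃ₐ[K] F) × (F ≃ₐ[K] F) → Fˣ) :
    ((topF K F P) ≃ₐ[fixK K F P] (topF K F P)) × ((topF K F P) ≃ₐ[fixK K F P] (topF K F P)) →
      (topF K F P)ˣ :=
  pullCochain (compHom K F P) (unitsTop K F P) c₀

theorem isMulCocycle₂_resFin {c₀ : (F ≃ₐ[K] F) × (F ≃ₐ[K] F) → Fˣ} (hc₀ : IsMulCocycle₂ c₀) :
    IsMulCocycle₂ (resFin K F P c₀) :=
  isMulCocycle₂_pullCochain _ _ (fun σ a => unitsTop_smul K F P σ a) hc₀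

theorem inflE_resFin (c₀ : (F ≃ₐ[K] F) × (F ≃ₐ[K] F) → Fˣ) :
    inflE (fixK K F P) (topF K F P) (resFin K F P c₀) =
      resCochain₂ (le_fixK K F P) (inflE K F c₀) := by
  funext x
  apply Units.ext
  show (((unitsTop K F P (c₀ (compHom K F P (resEF (fixK K F P) (topF K F P) x.1),
      compHom K F P (resEF (fixK K F P) (topF K F P) x.2))) : (topF K F P)ˣ) : topF K F P) : Qb) =
    (((c₀ (resEF K F (incl (le_fixK K F P) x.1), resEF K F (incl (le_fixK K F P) x.2)) : Fˣ) :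
      F) : Qb)
  rw [compHom_resEF, compHom_resEF]
  rfl

/-- A finite level cochain inflated to `G_K` is split by every field containing `F`. -/
theorem isSplitBy_inflE (c₀ : (F ≃ₐ[K] F) × (F ≃ₐ[K] F) → Fˣ) {L : IntermediateField ℚ Qb}
    (h : K ≤ L) (hFL : F.restrictScalars ℚ ≤ L) : IsSplitBy h (inflE K F c₀) := by
  obtain ⟨N, hN⟩ := (lvlE L).nonempty
  have hres : ∀ g : L.fixingSubgroup, resEF K F (incl h g) = 1 := by
    intro g
    rw [resEF_eq_one_iff]
    intro x
    exact (IntermediateField.mem_fixingSubgroup_iff _ _).1 g.2 _ (hFL x.2)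
  refine ⟨fun _ => Units.map (algebraMap F Qb : F →* Qb) (c₀ (1, 1)),
    ⟨N, hN, fun _ _ _ => rfl⟩, fun gh => ?_⟩
  rw [resCochain₂_apply]
  show actU (gh.1 : Qb ≃ₐ[ℚ] Qb) (Units.map (algebraMap F Qb : F →* Qb) (c₀ (1, 1))) *
      Units.map (algebraMap F Qb : F →* Qb) (c₀ (1, 1)) /
      Units.map (algebraMap F Qb : F →* Qb) (c₀ (1, 1)) =
    Units.map (algebraMap F Qb : F →* Qb)
      (c₀ (resEF K F (incl h gh.1), resEF K F (incl h gh.2)))
  rw [hres, hres, mul_div_cancel_right]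
  apply Units.ext
  exact (IntermediateField.mem_fixingSubgroup_iff _ _).1 gh.1.2 _ (hFL ((c₀ (1, 1) : Fˣ) : F).2)

variable [FiniteDimensional K F] [IsGalois K F]

set_option maxHeartbeats 2000000 in
/-- A coboundary on `Gal(F / F^P)` gives a coboundary on `P ≤ Gal(F / K)`. -/
theorem exists_cobound_on (c₀ : (F ≃ₐ[K] F) × (F ≃ₐ[K] F) → Fˣ)
    (h : IsMulCoboundary₂ (resFin K F P c₀)) :
    ∃ b : (F ≃ₐ[K] F) → Fˣ, ∀ σ ∈ P, ∀ τ ∈ P, σ • b τ / b (σ * τ) * b σ = c₀ (σ, τ) := by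
  classical
  obtain ⟨y, hy⟩ := h
  -- a section of `compHom` on `P`
  have hs : ∀ τ : F ≃ₐ[K] F, ∃ σ : (topF K F P) ≃ₐ[fixK K F P] (topF K F P),
      τ ∈ P → compHom K F P σ = τ := by
    intro τ
    by_cases hτ : τ ∈ P
    · obtain ⟨σ, hσ⟩ := exists_compHom_eq K F P hτ
      exact ⟨σ, fun _ => hσ⟩
    · exact ⟨1, fun h => absurd h hτ⟩
  choose s hs using hs
  have hyb : ∀ τ : F ≃ₐ[K] F, ∃ u : Fˣ, unitsTop K F P u = y (s τ) :=
    fun τ => unitsTop_surjective K F P _
  choose b hb using hyb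
  refine ⟨b, fun σ hσ τ hτ => ?_⟩
  apply unitsTop_injective K F P
  have hmul : s (σ * τ) = s σ * s τ := by
    apply compHom_injective K F P
    rw [map_mul, hs σ hσ, hs τ hτ, hs (σ * τ) (P.mul_mem hσ hτ)]
  have h1 : s σ • y (s τ) / y (s σ * s τ) * y (s σ) =
      unitsTop K F P (c₀ (compHom K F P (s σ), compHom K F P (s τ))) := hy (s σ) (s τ)
  rw [hs σ hσ, hs τ hτ] at h1
  have e1 : unitsTop K F P (σ • b τ) = s σ • y (s τ) := by
    have := unitsTop_smul K F P (s σ) (b τ)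
    rw [hs σ hσ] at this
    rw [this, hb]
  rw [map_mul, map_div, hb, hb, hmul, e1, h1]

omit [Normal K F] [FiniteDimensional K F] [IsGalois K F] in
/-- The `p`-th roots of unity of `F` are fixed by a `p`-subgroup of `Gal(F / K)`. -/
theorem zeta_mem_fixK {p : ℕ} [Fact p.Prime] (hP : IsPGroup p P) {ζ : Qb}
    (hζ : IsPrimitiveRoot ζ p) (hζF : ζ ∈ F) : ζ ∈ fixK K F P := by
  have hp : p.Prime := Fact.out
  haveI : NeZero p := ⟨hp.ne_zero⟩
  rw [mem_fixK]
  refine ⟨⟨ζ, hζF⟩, fun σ hσ => ?_, rfl⟩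
  have hμ : IsPrimitiveRoot (⟨ζ, hζF⟩ : F) p :=
    IsPrimitiveRoot.of_map_of_injective (f := algebraMap F Qb) hζ (algebraMap F Qb).injective
  have h1 : hμ.autToPow K σ = 1 := by
    obtain ⟨k, hk⟩ := hP ⟨σ, hσ⟩
    have hk' : σ ^ p ^ k = 1 := by
      have := congrArg Subtype.val hk
      simpa using this
    have h2 : (hμ.autToPow K σ) ^ p ^ k = 1 := by rw [← map_pow, hk', map_one]
    have h3 : (hμ.autToPow K σ) ^ (p - 1) = 1 := by
      have := pow_card_eq_one' (G := (ZMod p)ˣ) (x := hμ.autToPow K σ)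
      rwa [Nat.card_eq_fintype_card, ZMod.card_units] at this
    have hcop : Nat.Coprime (p ^ k) (p - 1) := by
      apply Nat.Coprime.pow_left
      rw [Nat.Prime.coprime_iff_not_dvd hp]
      exact Nat.not_dvd_of_pos_of_lt (Nat.sub_pos_of_lt hp.one_lt) (Nat.sub_lt hp.pos one_pos)
    have h4 := orderOf_dvd_of_pow_eq_one h2
    have h5 := orderOf_dvd_of_pow_eq_one h3
    have h6 : orderOf (hμ.autToPow K σ) = 1 :=
      Nat.eq_one_of_dvd_coprimes hcop h4 h5
    exact orderOf_eq_one_iff.1 h6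
  have h7 := hμ.autToPow_spec K σ
  rw [h1] at h7
  haveI : Fact (1 < p) := ⟨hp.one_lt⟩
  rw [Units.val_one, ZMod.val_one, pow_one] at h7
  exact h7.symm

end dict

set_option maxHeartbeats 2000000 in
/-- **[HS-F] SylowReduction**. -/
theorem sylowReduction : SylowReductionStatement := by
  intro p _ K hK c hc hcn
  obtain ⟨n, hcn⟩ := hcn
  have hp : p.Prime := Fact.out
  haveI := hK
  -- `c` comes from a finite level
  obtain ⟨F₀, hF₀fd, hF₀gal, c₀, hc₀, hcc₀⟩ :=
    Fermat.Agent.H75.Inf2.lvl2Finite K c hc.lvl hc.cocycle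
  haveI := hF₀fd
  haveI := hF₀gal
  -- a primitive `p`-th root of unity
  have hp0 : ((p : ℕ) : Qb) ≠ 0 := Nat.cast_ne_zero.mpr hp.ne_zero
  haveI : NeZero ((p : ℕ) : Qb) := ⟨hp0⟩
  obtain ⟨ζ, hζ⟩ := HasEnoughRootsOfUnity.exists_primitiveRoot Qb p
  -- the enlarged finite level
  have hζint : IsIntegral K ζ := Algebra.IsIntegral.isIntegral ζ
  haveI : FiniteDimensional K (IntermediateField.adjoin K {ζ}) :=
    IntermediateField.adjoin.finiteDimensional hζint
  haveI : FiniteDimensional K (F₀ ⊔ IntermediateField.adjoin K {ζ} : IntermediateField K Qb) :=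
    IntermediateField.finiteDimensional_sup F₀ (IntermediateField.adjoin K {ζ})
  obtain ⟨F, hFdef⟩ : ∃ F : IntermediateField K Qb, F = IntermediateField.normalClosure K
      (F₀ ⊔ IntermediateField.adjoin K {ζ} : IntermediateField K Qb) Qb := ⟨_, rfl⟩
  haveI : FiniteDimensional K F := by rw [hFdef]; infer_instance
  haveI : Normal K F := by rw [hFdef]; infer_instance
  haveI : IsGalois K F := ⟨⟩
  have hF₁F : (F₀ ⊔ IntermediateField.adjoin K {ζ} : IntermediateField K Qb) ≤ F := by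
    rw [hFdef]
    exact IntermediateField.le_normalClosure _
  have hF₀F : F₀ ≤ F := le_sup_left.trans hF₁F
  have hζF : ζ ∈ F :=
    hF₁F (le_sup_right (a := F₀) (IntermediateField.mem_adjoin_simple_self K ζ))
  obtain ⟨c₁, hc₁def⟩ : ∃ c₁ : (F ≃ₐ[K] F) × (F ≃ₐ[K] F) → Fˣ,
      c₁ = pullCochain (resLF K hF₀F) (unitsInclLF K hF₀F) c₀ := ⟨_, rfl⟩
  have hc₁ : IsMulCocycle₂ c₁ := by
    rw [hc₁def]
    exact isMulCocycle₂_pullCochain _ _ (fun σ a => unitsInclLF_smul K hF₀F σ a) hc₀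
  have hcc₁ : inflE K F c₁ = c := by
    rw [hc₁def, inflE_pullCochain K F₀ F (resLF K hF₀F) (resLF_resEF K hF₀F)
      (unitsInclLF K hF₀F) (coe_unitsInclLF K hF₀F) c₀]
    exact hcc₀
  -- the Sylow subgroup
  haveI : Finite (F ≃ₐ[K] F) := inferInstance
  obtain ⟨P⟩ : Nonempty (Sylow p (F ≃ₐ[K] F)) := inferInstance
  obtain ⟨n', hn'⟩ := IsPGroup.iff_card.1 P.isPGroup'
  refine ⟨fixK K F (P : Subgroup (F ≃ₐ[K] F)), F.restrictScalars ℚ,
    le_fixK K F (P : Subgroup (F ≃ₐ[K] F)), fixK_le K F (P : Subgroup (F ≃ₐ[K] F)), n',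
    finiteDimensional_fixK K F (P : Subgroup (F ≃ₐ[K] F)) hK,
    ⟨ζ, zeta_mem_fixK K F (P : Subgroup (F ≃ₐ[K] F)) P.isPGroup' hζ hζF, hζ⟩, ?_, ?_, ?_⟩
  · rw [← hn']
    exact isGalDeg_topF K F (P : Subgroup (F ≃ₐ[K] F)) hK
  · rw [← hcc₁]
    exact isSplitBy_inflE K F c₁ _ (le_refl _)
  · intro hres
    rw [← hcc₁] at hres hcn ⊢
    haveI := finiteDimensional_topF K F (P : Subgroup (F ≃ₐ[K] F)) hK
    haveI := isGalois_topF K F (P : Subgroup (F ≃ₐ[K] F))
    have h1 : IsMulCoboundary₂ (resFin K F (P : Subgroup (F ≃ₐ[K] F)) c₁) := by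
      refine Fermat.Agent.H75.Inf2.inf2Lvl Fermat.Agent.H57.CFT.h90Lvl
        (fixK K F (P : Subgroup (F ≃ₐ[K] F))) (topF K F (P : Subgroup (F ≃ₐ[K] F))) _
        (isMulCocycle₂_resFin K F (P : Subgroup (F ≃ₐ[K] F)) hc₁) ?_
      rw [inflE_resFin]
      exact hres
    obtain ⟨b, hb⟩ := exists_cobound_on K F (P : Subgroup (F ≃ₐ[K] F)) c₁ h1
    have h2 : IsMulCoboundary₂ (fun x => c₁ x ^ p ^ n) := by
      refine Fermat.Agent.H75.Inf2.inf2Lvl Fermat.Agent.H57.CFT.h90Lvl K F _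
        (isMulCocycle₂_pow_nat hc₁ _) ?_
      obtain ⟨x, hx, hxe⟩ := hcn
      refine ⟨x, hx, fun gh => ?_⟩
      rw [hxe gh]
      simp only [inflE, map_pow]
    have hcop : Nat.Coprime (p ^ n) (P : Subgroup (F ≃ₐ[K] F)).index :=
      Nat.Coprime.pow_left n ((Nat.Prime.coprime_iff_not_dvd hp).2 P.not_dvd_index)
    have h3 := isMulCoboundary₂_of_coprime (P : Subgroup (F ≃ₐ[K] F)) hc₁ b hb hcop h2
    exact Fermat.Agent.H75.Inf2.isLvlMulCoboundary_inflE K F c₁ h3

end Fermat.Agent.H96.Hasse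

end
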